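import Mathlib

set_option autoImplicit false

namespace Fermat.Agent.S53_helper78

open MvPolynomial

variable {𝒪 Λ : Type*} [CommRing 𝒪] [CommRing Λ] [Algebra 𝒪 Λ]

/-- Hypotheses on a tower of ideals `J n` of an `𝒪`-algebra `Λ`, with `M = J 1`
a quotient of `𝒪`, and elements `y i ∈ M` spanning the cotangent space at level two. -/
structure IsTower (𝒪 : Type*) [CommRing 𝒪] {Λ : Type*} [CommRing Λ] [Algebra 𝒪 Λ] (M : Ideal Λ) (J : ℕ → Ideal Λ) {e : ℕ} (y : Fin e → Λ) : Prop where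
  ne_top : M ≠ ⊤
  surj : ∀ z : Λ, ∃ a : 𝒪, z - algebraMap 𝒪 Λ a ∈ M
  pow_le : ∀ n, M ^ n ≤ J n
  step : ∀ n, J n = J (n + 1) ⊔ M ^ n
  one : J 1 = M
  y_mem : ∀ i, y i ∈ M
  gen : M ≤ Ideal.span (Set.range y) ⊔ J 2

theorem ideal_sup_pow_le (Q I : Ideal Λ) (k : ℕ) : (Q ⊔ I) ^ k ≤ Q ^ k ⊔ I := by
  induction k with
  | zero => rw [pow_zero, pow_zero, Ideal.one_eq_top, top_sup_eq]
  | succ k ih =>
    calc (Q ⊔ I) ^ (k + 1) = (Q ⊔ I) ^ k * (Q ⊔ I) := pow_succ _ _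
      _ ≤ (Q ^ k ⊔ I) * (Q ⊔ I) := Ideal.mul_mono_left ih
      _ = Q ^ k * Q ⊔ Q ^ k * I ⊔ (I * Q ⊔ I * I) := by
          rw [Ideal.sup_mul, Ideal.mul_sup, Ideal.mul_sup]
      _ ≤ Q ^ (k + 1) ⊔ I := by
          refine sup_le (sup_le ?_ ?_) (sup_le ?_ ?_)
          · rw [pow_succ]; exact le_sup_left
          · exact Ideal.mul_le_right.trans le_sup_right
          · exact Ideal.mul_le_left.trans le_sup_right
          · exact Ideal.mul_le_left.trans le_sup_right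

theorem span_range_eq_map_aeval {e : ℕ} (y : Fin e → Λ) : Ideal.span (Set.range y) =
    (idealOfVars (Fin e) 𝒪).map (aeval y : MvPolynomial (Fin e) 𝒪 →ₐ[𝒪] Λ) := by
  rw [idealOfVars, Ideal.map_span, ← Set.range_comp]
  congr 2
  ext i
  simp

theorem span_range_pow_eq_map_aeval {e : ℕ} (y : Fin e → Λ) (k : ℕ) :
    Ideal.span (Set.range y) ^ k =
    ((idealOfVars (Fin e) 𝒪) ^ k).map (aeval y : MvPolynomial (Fin e) 𝒪 →ₐ[𝒪] Λ) := by
  rw [Ideal.map_pow, ← span_range_eq_map_aeval]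

namespace IsTower

variable {M : Ideal Λ} {J : ℕ → Ideal Λ} {e : ℕ} {y : Fin e → Λ}

section
variable (h : IsTower 𝒪 M J y)
include h

theorem succ_le (n : ℕ) : J (n + 1) ≤ J n := by
  rw [h.step n]; exact le_sup_left

theorem antitone : Antitone J := antitone_nat_of_succ_le h.succ_le

theorem le_M (n : ℕ) (hn : 1 ≤ n) : J n ≤ M := by
  rw [← h.one]; exact h.antitone hn

theorem zero : J 0 = ⊤ := by
  rw [h.step 0, pow_zero, Ideal.one_eq_top, sup_top_eq]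

theorem two_eq (n : ℕ) (hn : 2 ≤ n) : J 2 = J n ⊔ M ^ 2 := by
  induction n, hn using Nat.le_induction with
  | base => exact (sup_eq_left.mpr (h.pow_le 2)).symm
  | succ n hn ih =>
    rw [ih, h.step n, sup_assoc]
    congr 1
    exact sup_eq_right.mpr (Ideal.pow_le_pow_right hn)

theorem span_le_M : Ideal.span (Set.range y) ≤ M := by
  rw [Ideal.span_le]; rintro _ ⟨i, rfl⟩; exact h.y_mem i

theorem M_le_aux (n : ℕ) (hn : 1 ≤ n) : M ≤ Ideal.span (Set.range y) ⊔ J n ⊔ M ^ 2 := by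
  rcases Nat.lt_or_ge n 2 with h2 | h2
  · have : n = 1 := by omega
    subst this
    rw [h.one]; exact le_sup_of_le_left le_sup_right
  · calc M ≤ Ideal.span (Set.range y) ⊔ J 2 := h.gen
      _ = Ideal.span (Set.range y) ⊔ J n ⊔ M ^ 2 := by rw [h.two_eq n h2, sup_assoc]

theorem M_le_pow (n : ℕ) (hn : 1 ≤ n) (k : ℕ) (hk : 1 ≤ k) :
    M ≤ Ideal.span (Set.range y) ⊔ J n ⊔ M ^ k := by
  induction k, hk using Nat.le_induction with
  | base => rw [pow_one]; exact le_sup_right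
  | succ k hk ih =>
    refine (h.M_le_aux n hn).trans (sup_le le_sup_left ?_)
    calc M ^ 2 = M * M := pow_two M
      _ ≤ M * (Ideal.span (Set.range y) ⊔ J n ⊔ M ^ k) := Ideal.mul_mono_right ih
      _ = M * Ideal.span (Set.range y) ⊔ M * J n ⊔ M * M ^ k := by
          rw [Ideal.mul_sup, Ideal.mul_sup]
      _ ≤ Ideal.span (Set.range y) ⊔ J n ⊔ M ^ (k + 1) := by
          refine sup_le_sup (sup_le_sup Ideal.mul_le_right Ideal.mul_le_right) ?_
          rw [pow_succ']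

theorem M_le (n : ℕ) : M ≤ Ideal.span (Set.range y) ⊔ J n := by
  rcases Nat.eq_zero_or_pos n with rfl | hn
  · rw [h.zero]; simp
  · refine (h.M_le_pow n hn n hn).trans (sup_le le_rfl ?_)
    exact (h.pow_le n).trans le_sup_right

theorem M_pow_le (n k : ℕ) : M ^ k ≤ Ideal.span (Set.range y) ^ k ⊔ J n :=
  (Ideal.pow_right_mono (h.M_le n) k).trans (ideal_sup_pow_le _ _ k)

theorem aeval_mem_pow {k : ℕ} {v : MvPolynomial (Fin e) 𝒪}
    (hv : v ∈ idealOfVars (Fin e) 𝒪 ^ k) : aeval y v ∈ M ^ k := by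
  have h1 : aeval y v ∈ Ideal.span (Set.range y) ^ k := by
    rw [span_range_pow_eq_map_aeval (𝒪 := 𝒪)]; exact Ideal.mem_map_of_mem _ hv
  exact Ideal.pow_right_mono h.span_le_M k h1

theorem exists_sub_mem_succ (k : ℕ) {q : Λ} (hq : q ∈ Ideal.span (Set.range y) ^ k) :
    ∃ v ∈ idealOfVars (Fin e) 𝒪 ^ k, q - aeval y v ∈ M ^ (k + 1) := by
  rw [span_range_pow_eq_map_aeval (𝒪 := 𝒪), Ideal.map] at hq
  induction hq using Submodule.span_induction with
  | mem q hq =>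
    obtain ⟨v, hv, rfl⟩ := hq
    exact ⟨v, hv, by simp⟩
  | zero => exact ⟨0, zero_mem _, by simp⟩
  | add q q' _ _ ih ih' =>
    obtain ⟨v, hv, hqv⟩ := ih
    obtain ⟨v', hv', hqv'⟩ := ih'
    refine ⟨v + v', add_mem hv hv', ?_⟩
    rw [map_add, add_sub_add_comm]
    exact add_mem hqv hqv'
  | smul c q _ ih =>
    obtain ⟨v, hv, hqv⟩ := ih
    obtain ⟨a, ha⟩ := h.surj c
    refine ⟨C a * v, Ideal.mul_mem_left _ _ hv, ?_⟩
    have hv' : aeval y v ∈ M ^ k := h.aeval_mem_pow hv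
    have e1 : c • q - aeval y (C a * v) =
        c * (q - aeval y v) + (c - algebraMap 𝒪 Λ a) * aeval y v := by
      rw [map_mul, aeval_C, smul_eq_mul]; ring
    rw [e1]
    refine add_mem (Ideal.mul_mem_left _ _ hqv) ?_
    rw [pow_succ']
    exact Ideal.mul_mem_mul ha hv'

theorem exists_aeval_sub_mem (n k : ℕ) (z : Λ) :
    ∃ p : MvPolynomial (Fin e) 𝒪, z - aeval y p ∈ M ^ k ⊔ J n := by
  induction k with
  | zero => exact ⟨0, by simp⟩
  | succ k ih =>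
    obtain ⟨p, hp⟩ := ih
    have hp' := sup_le (h.M_pow_le n k) le_sup_right hp
    obtain ⟨q, hq, j, hj, hqj⟩ := Submodule.mem_sup.mp hp'
    obtain ⟨v, hv, hqv⟩ := h.exists_sub_mem_succ k hq
    refine ⟨p + v, ?_⟩
    have e1 : z - aeval y (p + v) = (q - aeval y v) + j := by
      rw [map_add, ← sub_sub, ← hqj]; ring
    rw [e1]
    exact add_mem (Ideal.mem_sup_left hqv) (Ideal.mem_sup_right hj)

theorem exists_aeval_sub_mem_J (n : ℕ) (z : Λ) :
    ∃ p : MvPolynomial (Fin e) 𝒪, z - aeval y p ∈ J n := by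
  obtain ⟨p, hp⟩ := h.exists_aeval_sub_mem n n z
  exact ⟨p, sup_le (h.pow_le n) le_rfl hp⟩

theorem exists_sub_mem_J_succ (n : ℕ) {p : MvPolynomial (Fin e) 𝒪} (hp : aeval y p ∈ J n) :
    ∃ v ∈ idealOfVars (Fin e) 𝒪 ^ n, aeval y (p - v) ∈ J (n + 1) := by
  rw [h.step n] at hp
  have hp' := sup_le (le_sup_right : J (n + 1) ≤ Ideal.span (Set.range y) ^ n ⊔ J (n + 1))
    (h.M_pow_le (n + 1) n) hp
  obtain ⟨q, hq, j, hj, hqj⟩ := Submodule.mem_sup.mp hp'
  obtain ⟨v, hv, hqv⟩ := h.exists_sub_mem_succ n hq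
  refine ⟨v, hv, ?_⟩
  have e1 : aeval y (p - v) = (q - aeval y v) + j := by
    rw [map_sub, ← hqj]; ring
  rw [e1]
  exact add_mem (h.pow_le (n + 1) hqv) hj

end

end IsTower

end Fermat.Agent.S53_helper78
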