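import Mathlib
import Fermat.Agent.S53_helper78.Tower

set_option autoImplicit false

namespace Fermat.Agent.S53_helper78

open MvPolynomial (idealOfVars aeval)

variable {𝒪 Λ : Type*} [CommRing 𝒪] [CommRing Λ] [Algebra 𝒪 Λ]
variable {M : Ideal Λ} {J : ℕ → Ideal Λ} {e : ℕ} {y : Fin e → Λ}

/-- The ideal of `MvPowerSeries (Fin e) 𝒪` generated by the variables. -/
noncomputable abbrev varsIdeal (𝒪 : Type*) [CommRing 𝒪] (e : ℕ) :
    Ideal (MvPowerSeries (Fin e) 𝒪) :=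
  Ideal.span (Set.range MvPowerSeries.X)

theorem coe_mem_varsIdeal_pow {n : ℕ} {v : MvPolynomial (Fin e) 𝒪}
    (hv : v ∈ idealOfVars (Fin e) 𝒪 ^ n) :
    (v : MvPowerSeries (Fin e) 𝒪) ∈ varsIdeal 𝒪 e ^ n := by
  have h1 : (idealOfVars (Fin e) 𝒪).map
      (MvPolynomial.coeToMvPowerSeries.ringHom : MvPolynomial (Fin e) 𝒪 →+* _) =
      varsIdeal 𝒪 e := by
    rw [idealOfVars, Ideal.map_span, ← Set.range_comp]
    congr 2
    ext i : 1
    exact MvPolynomial.coe_X i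
  rw [← h1, ← Ideal.map_pow]
  exact Ideal.mem_map_of_mem _ hv

namespace IsTower

variable (h : IsTower 𝒪 M J y)

/-- The evaluation map `𝒪⟦X⟧ → Λ ⧸ J n`, `X i ↦ y i`, defined by truncation. -/
noncomputable def psi (n : ℕ) : MvPowerSeries (Fin e) 𝒪 →+* Λ ⧸ J n :=
  (Ideal.Quotient.lift (idealOfVars (Fin e) 𝒪 ^ n)
    ((Ideal.Quotient.mk (J n)).comp
      (aeval y : MvPolynomial (Fin e) 𝒪 →ₐ[𝒪] Λ).toRingHom)
    (fun v hv => by
      rw [RingHom.comp_apply]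
      exact Ideal.Quotient.eq_zero_iff_mem.mpr (h.pow_le n (h.aeval_mem_pow hv)))).comp
  (MvPowerSeries.truncTotalAlgHom (Fin e) 𝒪 n).toRingHom

theorem psi_apply (n : ℕ) (f : MvPowerSeries (Fin e) 𝒪) :
    h.psi n f = Ideal.Quotient.mk (J n) (aeval y (MvPowerSeries.truncTotal n f)) := by
  simp [psi, MvPowerSeries.truncTotalAlgHom_apply]

theorem psi_coe (n : ℕ) (p : MvPolynomial (Fin e) 𝒪) :
    h.psi n (p : MvPowerSeries (Fin e) 𝒪) = Ideal.Quotient.mk (J n) (aeval y p) := by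
  have h1 : (MvPowerSeries.truncTotalAlgHom (Fin e) 𝒪 n) (p : MvPowerSeries (Fin e) 𝒪) =
      Ideal.Quotient.mk _ p :=
    (MvPowerSeries.truncTotalAlgHom (Fin e) 𝒪 n).commutes p
  simp only [psi, RingHom.comp_apply, AlgHom.toRingHom_eq_coe, RingHom.coe_coe, h1,
    Ideal.Quotient.lift_mk]

theorem psi_surjective (n : ℕ) : Function.Surjective (h.psi n) := by
  intro b
  obtain ⟨z, rfl⟩ := Ideal.Quotient.mk_surjective b
  obtain ⟨p, hp⟩ := h.exists_aeval_sub_mem_J n z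
  exact ⟨p, by rw [psi_coe]; exact (Ideal.Quotient.eq.mpr hp).symm⟩

theorem psi_X (n : ℕ) (i : Fin e) :
    h.psi n (MvPowerSeries.X i) = Ideal.Quotient.mk (J n) (y i) := by
  rw [← MvPolynomial.coe_X, psi_coe, MvPolynomial.aeval_X]

theorem psi_C (n : ℕ) (a : 𝒪) :
    h.psi n (MvPowerSeries.C a) = Ideal.Quotient.mk (J n) (algebraMap 𝒪 Λ a) := by
  rw [← MvPolynomial.coe_C, psi_coe, MvPolynomial.aeval_C]

theorem psi_succ (n : ℕ) (f : MvPowerSeries (Fin e) 𝒪) :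
    Ideal.Quotient.factor (h.succ_le n) (h.psi (n + 1) f) = h.psi n f := by
  rw [psi_apply, psi_apply, Ideal.Quotient.factor_mk, Ideal.Quotient.eq, ← map_sub]
  exact h.pow_le n (h.aeval_mem_pow
    (MvPowerSeries.truncTotal_sub_truncTotal_mem_pow_idealOfVars (Nat.le_succ n) le_rfl f))

theorem ker_psi_succ_le (n : ℕ) : RingHom.ker (h.psi (n + 1)) ≤ RingHom.ker (h.psi n) := by
  intro f hf
  rw [RingHom.mem_ker] at hf ⊢
  rw [← h.psi_succ n f, hf, map_zero]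

theorem ker_psi_antitone : Antitone fun n => RingHom.ker (h.psi n) :=
  antitone_nat_of_succ_le h.ker_psi_succ_le

theorem varsIdeal_pow_le_ker (n : ℕ) : varsIdeal 𝒪 e ^ n ≤ RingHom.ker (h.psi n) := by
  have h1 : (varsIdeal 𝒪 e).map (h.psi n) ≤ M.map (Ideal.Quotient.mk (J n)) := by
    rw [varsIdeal, Ideal.map_span, Ideal.span_le]
    rintro _ ⟨_, ⟨i, rfl⟩, rfl⟩
    rw [psi_X]
    exact Ideal.mem_map_of_mem _ (h.y_mem i)
  have h2 : (M ^ n).map (Ideal.Quotient.mk (J n)) = ⊥ := by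
    exact (Ideal.map_eq_bot_iff_le_ker _).mpr (by rw [Ideal.mk_ker]; exact h.pow_le n)
  intro f hf
  have h3 : h.psi n f ∈ ((varsIdeal 𝒪 e) ^ n).map (h.psi n) := Ideal.mem_map_of_mem _ hf
  rw [Ideal.map_pow] at h3
  have h4 := Ideal.pow_right_mono h1 n h3
  rw [← Ideal.map_pow, h2] at h4
  exact h4

theorem ker_psi_step (n : ℕ) {f : MvPowerSeries (Fin e) 𝒪} (hf : f ∈ RingHom.ker (h.psi n)) :
    ∃ g ∈ varsIdeal 𝒪 e ^ n, f - g ∈ RingHom.ker (h.psi (n + 1)) := by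
  set p := MvPowerSeries.truncTotal (n + 1) f with hp
  have h1 : aeval y p ∈ J n := by
    have := h.psi_succ n f
    rw [RingHom.mem_ker.mp hf, psi_apply, Ideal.Quotient.factor_mk] at this
    exact Ideal.Quotient.eq_zero_iff_mem.mp this
  obtain ⟨v, hv, hpv⟩ := h.exists_sub_mem_J_succ n h1
  refine ⟨(v : MvPowerSeries (Fin e) 𝒪), coe_mem_varsIdeal_pow hv, ?_⟩
  rw [RingHom.mem_ker, map_sub, psi_apply, psi_coe, ← map_sub, ← map_sub]
  exact Ideal.Quotient.eq_zero_iff_mem.mpr hpv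

/-- One correction step used in `ker_psi_le`. -/
noncomputable def chevStep (m : ℕ) (g : MvPowerSeries (Fin e) 𝒪) : MvPowerSeries (Fin e) 𝒪 :=
  open Classical in
  if hg : g ∈ RingHom.ker (h.psi m) then g - (h.ker_psi_step m hg).choose else g

/-- The sequence of successive corrections. -/
noncomputable def chevSeq (n : ℕ) (f : MvPowerSeries (Fin e) 𝒪) : ℕ → MvPowerSeries (Fin e) 𝒪
  | 0 => f
  | i + 1 => h.chevStep (n + i) (chevSeq n f i)

theorem chevSeq_mem (n : ℕ) {f : MvPowerSeries (Fin e) 𝒪} (hf : f ∈ RingHom.ker (h.psi n))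
    (i : ℕ) : h.chevSeq n f i ∈ RingHom.ker (h.psi (n + i)) := by
  induction i with
  | zero => exact hf
  | succ i ih =>
    rw [chevSeq, chevStep, dif_pos ih]
    exact (h.ker_psi_step (n + i) ih).choose_spec.2

theorem chevSeq_sub (n : ℕ) {f : MvPowerSeries (Fin e) 𝒪} (hf : f ∈ RingHom.ker (h.psi n))
    (i : ℕ) : h.chevSeq n f i - h.chevSeq n f (i + 1) ∈ varsIdeal 𝒪 e ^ (n + i) := by
  have ih := h.chevSeq_mem n hf i
  rw [chevSeq, chevStep, dif_pos ih, sub_sub_cancel]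
  exact (h.ker_psi_step (n + i) ih).choose_spec.1

theorem chevSeq_sub_le (n : ℕ) {f : MvPowerSeries (Fin e) 𝒪} (hf : f ∈ RingHom.ker (h.psi n))
    {i j : ℕ} (hij : i ≤ j) :
    h.chevSeq n f i - h.chevSeq n f j ∈ varsIdeal 𝒪 e ^ (n + i) := by
  induction j, hij using Nat.le_induction with
  | base => rw [sub_self]; exact zero_mem _
  | succ j hij ih =>
    have h1 := h.chevSeq_sub n hf j
    have h2 : varsIdeal 𝒪 e ^ (n + j) ≤ varsIdeal 𝒪 e ^ (n + i) :=
      Ideal.pow_le_pow_right (by omega)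
    have := add_mem ih (h2 h1)
    rwa [sub_add_sub_cancel] at this

theorem ker_psi_le (n : ℕ) :
    RingHom.ker (h.psi n) ≤ (⨅ m, RingHom.ker (h.psi m)) ⊔ varsIdeal 𝒪 e ^ n := by
  intro f hf
  set F := h.chevSeq n f with hF
  have hcauchy : ∀ {i j : ℕ}, i ≤ j →
      (f - F i) ≡ (f - F j) [SMOD (varsIdeal 𝒪 e ^ i • ⊤ :
        Submodule (MvPowerSeries (Fin e) 𝒪) (MvPowerSeries (Fin e) 𝒪))] := by
    intro i j hij
    rw [SModEq.sub_mem, smul_eq_mul, Ideal.mul_top]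
    have h1 := h.chevSeq_sub_le n hf hij
    have h2 : varsIdeal 𝒪 e ^ (n + i) ≤ varsIdeal 𝒪 e ^ i := Ideal.pow_le_pow_right (by omega)
    have h3 : f - F i - (f - F j) = -(F i - F j) := by ring
    rw [h3]
    exact neg_mem (h2 h1)
  obtain ⟨L, hL⟩ := IsPrecomplete.prec (I := varsIdeal 𝒪 e) inferInstance hcauchy
  have hL' : ∀ i, L - (f - F i) ∈ varsIdeal 𝒪 e ^ (n + i) := by
    intro i
    have h1 := hL (n + i)
    rw [SModEq.sub_mem, smul_eq_mul, Ideal.mul_top] at h1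
    have h2 : F i - F (n + i) ∈ varsIdeal 𝒪 e ^ (n + i) :=
      h.chevSeq_sub_le n hf (Nat.le_add_left i n)
    have h3 : L - (f - F i) = -(f - F (n + i) - L) + (F i - F (n + i)) := by ring
    rw [h3]
    exact add_mem (neg_mem h1) h2
  have hLn : L ∈ varsIdeal 𝒪 e ^ n := by
    have := hL' 0
    simpa [hF, chevSeq] using this
  have hmem : f - L ∈ ⨅ m, RingHom.ker (h.psi m) := by
    rw [Ideal.mem_iInf]
    intro m
    rcases le_total m n with hmn | hmn
    · exact h.ker_psi_antitone hmn (sub_mem hf (h.varsIdeal_pow_le_ker n hLn))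
    · obtain ⟨i, rfl⟩ := Nat.exists_eq_add_of_le hmn
      have h1 : f - L = F i - (L - (f - F i)) := by ring
      rw [h1]
      exact sub_mem (h.chevSeq_mem n hf i) (h.varsIdeal_pow_le_ker (n + i) (hL' i))
  have : f = (f - L) + L := by ring
  rw [this]
  exact add_mem (Ideal.mem_sup_left hmem) (Ideal.mem_sup_right hLn)

theorem ker_psi_eq (n : ℕ) :
    RingHom.ker (h.psi n) = (⨅ m, RingHom.ker (h.psi m)) ⊔ varsIdeal 𝒪 e ^ n :=
  le_antisymm (h.ker_psi_le n) (sup_le (iInf_le _ n) (h.varsIdeal_pow_le_ker n))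

end IsTower

end Fermat.Agent.S53_helper78
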