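import Mathlib
import Fermat.Prelude.Thm_IsAdicComplete_of_module_finite
import Fermat.Agent.S53_helper78.PowerSeriesMap

set_option autoImplicit false

namespace Fermat.Agent.S53_helper78

open IsLocalRing

variable {𝒪 Λ : Type*} [CommRing 𝒪] [CommRing Λ] [Algebra 𝒪 Λ]
variable {M : Ideal Λ} {J : ℕ → Ideal Λ} {e : ℕ} {y : Fin e → Λ}

namespace IsTower

variable (h : IsTower 𝒪 M J y)

theorem psi_le {m n : ℕ} (hmn : m ≤ n) (f : MvPowerSeries (Fin e) 𝒪) :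
    Ideal.Quotient.factor (h.antitone hmn) (h.psi n f) = h.psi m f := by
  induction n, hmn using Nat.le_induction with
  | base =>
    obtain ⟨z, hz⟩ := Ideal.Quotient.mk_surjective (h.psi m f)
    rw [← hz, Ideal.Quotient.factor_mk]
  | succ n hmn ih =>
    rw [← ih, ← h.psi_succ n f]
    obtain ⟨z, hz⟩ := Ideal.Quotient.mk_surjective (h.psi (n + 1) f)
    rw [← hz, Ideal.Quotient.factor_mk, Ideal.Quotient.factor_mk, Ideal.Quotient.factor_mk]

/-- The kernel of `𝒪⟦X⟧ → lim Λ ⧸ J n`. -/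
noncomputable def limKer : Ideal (MvPowerSeries (Fin e) 𝒪) := ⨅ m, RingHom.ker (h.psi m)

theorem limKer_le (n : ℕ) : h.limKer ≤ RingHom.ker (h.psi n) := iInf_le _ n

theorem ker_psi_eq' (n : ℕ) : RingHom.ker (h.psi n) = h.limKer ⊔ varsIdeal 𝒪 e ^ n :=
  h.ker_psi_eq n

theorem limKer_ne_top : h.limKer ≠ ⊤ := by
  intro htop
  have h1 : (1 : MvPowerSeries (Fin e) 𝒪) ∈ RingHom.ker (h.psi 1) :=
    h.limKer_le 1 (htop ▸ Submodule.mem_top)
  rw [RingHom.mem_ker, map_one] at h1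
  have h2 : (1 : Λ) ∈ J 1 := Ideal.Quotient.eq_zero_iff_mem.mp h1
  rw [h.one] at h2
  exact h.ne_top ((Ideal.eq_top_iff_one M).mpr h2)

/-- The limit ring `lim Λ ⧸ J n`, as a quotient of a power series ring. -/
abbrev LimRing : Type _ := MvPowerSeries (Fin e) 𝒪 ⧸ h.limKer

instance : Nontrivial h.LimRing := Ideal.Quotient.nontrivial_iff.mpr h.limKer_ne_top

/-- `psi` as an algebra homomorphism. -/
noncomputable def psiAlg (n : ℕ) : MvPowerSeries (Fin e) 𝒪 →ₐ[𝒪] Λ ⧸ J n :=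
  { h.psi n with
    commutes' := fun a => by
      show h.psi n (algebraMap 𝒪 _ a) = _
      rw [MvPowerSeries.algebraMap_apply, Algebra.algebraMap_self, RingHom.id_apply, psi_C,
        ← Ideal.Quotient.mk_algebraMap] }

theorem psiAlg_apply (n : ℕ) (f : MvPowerSeries (Fin e) 𝒪) : h.psiAlg n f = h.psi n f := rfl

/-- The projection `lim Λ ⧸ J n → Λ ⧸ J n`. -/
noncomputable def proj (n : ℕ) : h.LimRing →ₐ[𝒪] Λ ⧸ J n :=
  Ideal.Quotient.liftₐ h.limKer (h.psiAlg n)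
    (fun _ hf => RingHom.mem_ker.mp (h.limKer_le n hf))

theorem proj_mk (n : ℕ) (f : MvPowerSeries (Fin e) 𝒪) :
    h.proj n (Ideal.Quotient.mk h.limKer f) = h.psi n f := rfl

theorem proj_surjective (n : ℕ) : Function.Surjective (h.proj n) := by
  intro b
  obtain ⟨f, rfl⟩ := h.psi_surjective n b
  exact ⟨Ideal.Quotient.mk _ f, rfl⟩

theorem ker_proj (n : ℕ) : RingHom.ker (h.proj n : h.LimRing →+* Λ ⧸ J n) =
    ((varsIdeal 𝒪 e).map (Ideal.Quotient.mk h.limKer)) ^ n := by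
  rw [← Ideal.map_pow]
  apply le_antisymm
  · intro r hr
    obtain ⟨f, rfl⟩ := Ideal.Quotient.mk_surjective r
    have hf : f ∈ RingHom.ker (h.psi n) := by
      rw [RingHom.mem_ker] at hr ⊢; exact hr
    rw [h.ker_psi_eq' n] at hf
    obtain ⟨j, hj, g, hg, rfl⟩ := Submodule.mem_sup.mp hf
    rw [map_add, Ideal.Quotient.eq_zero_iff_mem.mpr hj, zero_add]
    exact Ideal.mem_map_of_mem _ hg
  · rw [Ideal.map_le_iff_le_comap]
    intro f hf
    rw [Ideal.mem_comap, RingHom.mem_ker]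
    exact RingHom.mem_ker.mp (h.varsIdeal_pow_le_ker n hf)

section Local

variable [IsLocalRing 𝒪]

instance : IsLocalRing h.LimRing :=
  IsLocalRing.of_surjective' (Ideal.Quotient.mk h.limKer) Ideal.Quotient.mk_surjective

theorem maximalIdeal_eq (hM : M.IsMaximal) : maximalIdeal h.LimRing =
    (varsIdeal 𝒪 e).map (Ideal.Quotient.mk h.limKer) := by
  have : (J 1).IsMaximal := h.one.symm ▸ hM
  have hmax : (RingHom.ker (h.proj 1 : h.LimRing →+* Λ ⧸ J 1)).IsMaximal := by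
    let _ := Ideal.Quotient.field (J 1)
    exact RingHom.ker_isMaximal_of_surjective _ (h.proj_surjective 1)
  rw [← IsLocalRing.eq_maximalIdeal hmax, h.ker_proj 1]
  exact pow_one _

theorem ker_proj' (hM : M.IsMaximal) (n : ℕ) :
    RingHom.ker (h.proj n : h.LimRing →+* Λ ⧸ J n) = maximalIdeal h.LimRing ^ n := by
  rw [h.ker_proj, h.maximalIdeal_eq hM]

theorem isAdicComplete [IsNoetherianRing 𝒪] (hM : M.IsMaximal) :
    IsAdicComplete (maximalIdeal h.LimRing) h.LimRing := by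
  rw [h.maximalIdeal_eq hM]
  have h1 : IsAdicComplete (varsIdeal 𝒪 e) h.LimRing :=
    IsAdicComplete.of_module_finite (varsIdeal 𝒪 e) h.LimRing
  rw [← Ideal.Quotient.algebraMap_eq]
  exact (IsAdicComplete.map_algebraMap_iff (varsIdeal 𝒪 e) h.LimRing).mpr h1

theorem isLocalHom_algebraMap
    (hmap : ∀ a ∈ maximalIdeal 𝒪, algebraMap 𝒪 Λ a ∈ M) :
    IsLocalHom (algebraMap 𝒪 h.LimRing) := by
  refine ⟨fun a ha => ?_⟩
  by_contra hna
  have h1 : algebraMap 𝒪 Λ a ∈ M := hmap a ((IsLocalRing.mem_maximalIdeal a).mpr hna)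
  have h2 : IsUnit (h.proj 1 (algebraMap 𝒪 h.LimRing a)) := ha.map _
  rw [AlgHom.commutes, ← Ideal.Quotient.mk_algebraMap] at h2
  have h3 : Ideal.Quotient.mk (J 1) (algebraMap 𝒪 Λ a) = 0 :=
    Ideal.Quotient.eq_zero_iff_mem.mpr (h.one.symm ▸ h1)
  rw [h3] at h2
  have : Nontrivial (Λ ⧸ J 1) :=
    Ideal.Quotient.nontrivial_iff.mpr (h.one.symm ▸ h.ne_top)
  exact not_isUnit_zero h2

theorem residue_surjective (hM : M.IsMaximal) :
    Function.Surjective (IsLocalRing.residue h.LimRing ∘ algebraMap 𝒪 h.LimRing) := by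
  intro b
  obtain ⟨r, rfl⟩ := IsLocalRing.residue_surjective b
  obtain ⟨z, hz⟩ := Ideal.Quotient.mk_surjective (h.proj 1 r)
  obtain ⟨a, ha⟩ := h.surj z
  refine ⟨a, ?_⟩
  rw [Function.comp_apply, eq_comm, ← sub_eq_zero, ← map_sub, IsLocalRing.residue_eq_zero_iff,
    ← pow_one (maximalIdeal _), ← h.ker_proj' hM 1, RingHom.mem_ker]
  show h.proj 1 (r - algebraMap 𝒪 h.LimRing a) = 0
  rw [map_sub, AlgHom.commutes, ← hz, ← Ideal.Quotient.mk_algebraMap, ← map_sub]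
  exact Ideal.Quotient.eq_zero_iff_mem.mpr (h.one.symm ▸ ha)

end Local

section Iota

variable [IsLocalRing 𝒪] (hM : M.IsMaximal)

/-- The inverse of the isomorphism `LimRing ⧸ 𝔪 ^ n ≃ Λ ⧸ J n` induced by `proj n`. -/
noncomputable def invProj (n : ℕ) : Λ ⧸ J n →+* h.LimRing ⧸ maximalIdeal h.LimRing ^ n :=
  RingHom.liftOfSurjective (h.psi n) (h.psi_surjective n)
    ⟨(Ideal.Quotient.mk (maximalIdeal h.LimRing ^ n)).comp (Ideal.Quotient.mk h.limKer),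
      fun f hf => by
        rw [RingHom.mem_ker, RingHom.comp_apply, Ideal.Quotient.eq_zero_iff_mem,
          ← h.ker_proj' hM n, RingHom.mem_ker]
        exact RingHom.mem_ker.mp hf⟩

theorem invProj_psi (n : ℕ) (f : MvPowerSeries (Fin e) 𝒪) :
    h.invProj hM n (h.psi n f) =
      Ideal.Quotient.mk (maximalIdeal h.LimRing ^ n) (Ideal.Quotient.mk h.limKer f) :=
  RingHom.liftOfSurjective_comp_apply _ _ _ _

theorem invProj_injective (n : ℕ) : Function.Injective (h.invProj hM n) := by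
  rw [injective_iff_map_eq_zero]
  intro b hb
  obtain ⟨f, rfl⟩ := h.psi_surjective n b
  rw [invProj_psi, Ideal.Quotient.eq_zero_iff_mem, ← h.ker_proj' hM n, RingHom.mem_ker] at hb
  exact hb

/-- The compatible family of maps `Λ → LimRing ⧸ 𝔪 ^ n`. -/
noncomputable def iotaLevel (n : ℕ) : Λ →ₐ[𝒪] h.LimRing ⧸ maximalIdeal h.LimRing ^ n :=
  { (h.invProj hM n).comp (Ideal.Quotient.mk (J n)) with
    commutes' := fun a => by
      show h.invProj hM n (Ideal.Quotient.mk (J n) (algebraMap 𝒪 Λ a)) = _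
      rw [← h.psi_C, invProj_psi, ← Ideal.Quotient.mk_algebraMap, ← Ideal.Quotient.mk_algebraMap,
        MvPowerSeries.algebraMap_apply, Algebra.algebraMap_self, RingHom.id_apply] }

theorem iotaLevel_apply (n : ℕ) (z : Λ) :
    h.iotaLevel hM n z = h.invProj hM n (Ideal.Quotient.mk (J n) z) := rfl

theorem iotaLevel_of_psi (n : ℕ) {z : Λ} {f : MvPowerSeries (Fin e) 𝒪}
    (hf : h.psi n f = Ideal.Quotient.mk (J n) z) :
    h.iotaLevel hM n z =
      Ideal.Quotient.mk (maximalIdeal h.LimRing ^ n) (Ideal.Quotient.mk h.limKer f) := by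
  rw [iotaLevel_apply, ← hf, invProj_psi]

theorem iotaLevel_compat {m n : ℕ} (hle : m ≤ n) :
    (Ideal.Quotient.factorₐ 𝒪 (Ideal.pow_le_pow_right hle)).comp (h.iotaLevel hM n) =
      h.iotaLevel hM m := by
  ext z
  obtain ⟨f, hf⟩ := h.psi_surjective n (Ideal.Quotient.mk (J n) z)
  have hf' : h.psi m f = Ideal.Quotient.mk (J m) z := by
    rw [← h.psi_le hle, hf, Ideal.Quotient.factor_mk]
  rw [AlgHom.comp_apply, h.iotaLevel_of_psi hM n hf, h.iotaLevel_of_psi hM m hf']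
  rfl

variable [IsNoetherianRing 𝒪]

/-- The canonical map `Λ → lim Λ ⧸ J n`. -/
noncomputable def iota : Λ →ₐ[𝒪] h.LimRing :=
  haveI := h.isAdicComplete hM
  IsAdicComplete.liftAlgHom (maximalIdeal h.LimRing) (h.iotaLevel hM)
    (fun hle => h.iotaLevel_compat hM hle)

theorem mk_iota (n : ℕ) (z : Λ) :
    Ideal.Quotient.mk (maximalIdeal h.LimRing ^ n) (h.iota hM z) = h.iotaLevel hM n z := by
  have := h.isAdicComplete hM
  exact IsAdicComplete.mk_liftAlgHom _ _ _ n z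

theorem comap_iota (n : ℕ) : (maximalIdeal h.LimRing ^ n).comap (h.iota hM) = J n := by
  ext z
  rw [Ideal.mem_comap, ← Ideal.Quotient.eq_zero_iff_mem, mk_iota, iotaLevel_apply,
    map_eq_zero_iff _ (h.invProj_injective hM n), Ideal.Quotient.eq_zero_iff_mem]

theorem exists_sub_iota_mem (n : ℕ) (r : h.LimRing) :
    ∃ z : Λ, r - h.iota hM z ∈ maximalIdeal h.LimRing ^ n := by
  obtain ⟨f, rfl⟩ := Ideal.Quotient.mk_surjective r
  obtain ⟨z, hz⟩ := Ideal.Quotient.mk_surjective (h.psi n f)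
  refine ⟨z, ?_⟩
  rw [← Ideal.Quotient.eq, mk_iota, h.iotaLevel_of_psi hM n hz.symm]

theorem proj_iota (n : ℕ) (z : Λ) : h.proj n (h.iota hM z) = Ideal.Quotient.mk (J n) z := by
  obtain ⟨f, hf⟩ := h.psi_surjective n (Ideal.Quotient.mk (J n) z)
  have h1 := h.mk_iota hM n z
  rw [h.iotaLevel_of_psi hM n hf, Ideal.Quotient.eq, ← h.ker_proj' hM n, RingHom.mem_ker] at h1
  have h2 : h.proj n (h.iota hM z) = h.proj n (Ideal.Quotient.mk h.limKer f) := by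
    rw [← sub_eq_zero, ← map_sub]; exact h1
  rw [h2, proj_mk, hf]

end Iota

end IsTower

section Main

theorem isMaximal_of_surj [IsLocalRing 𝒪] {M : Ideal Λ} (hne : M ≠ ⊤)
    (hsurj : ∀ z : Λ, ∃ a : 𝒪, z - algebraMap 𝒪 Λ a ∈ M)
    (hmax : ∀ a ∈ maximalIdeal 𝒪, algebraMap 𝒪 Λ a ∈ M) : M.IsMaximal := by
  rw [Ideal.isMaximal_iff]
  refine ⟨fun h1 => hne ((Ideal.eq_top_iff_one M).mpr h1), fun K z hMK hz hzK => ?_⟩
  obtain ⟨a, ha⟩ := hsurj z
  have hau : IsUnit a := by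
    by_contra hna
    have h1 := hmax a ((IsLocalRing.mem_maximalIdeal a).mpr hna)
    exact hz (by simpa using add_mem ha h1)
  obtain ⟨b, hb⟩ := hau.exists_left_inv
  have h2 : (1 : Λ) = algebraMap 𝒪 Λ b * z - algebraMap 𝒪 Λ b * (z - algebraMap 𝒪 Λ a) := by
    rw [mul_sub, sub_sub_cancel, ← map_mul, hb, map_one]
  rw [h2]
  exact sub_mem (Ideal.mul_mem_left _ _ hzK) (Ideal.mul_mem_left _ _ (hMK ha))

/-- Reindexing of a tower given for `n ≥ 1` only. -/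
noncomputable def towerOf (I : ℕ → Ideal Λ) (n : ℕ) : Ideal Λ := if n = 0 then ⊤ else I n

theorem towerOf_of_pos (I : ℕ → Ideal Λ) {n : ℕ} (hn : 1 ≤ n) : towerOf I n = I n := by
  rw [towerOf, if_neg (by omega)]

theorem isTower_towerOf [IsLocalRing 𝒪] (I : ℕ → Ideal Λ)
    (hI1 : I 1 ≠ ⊤)
    (hsurj : ∀ z : Λ, ∃ a : 𝒪, z - algebraMap 𝒪 Λ a ∈ I 1)
    (hmax : ∀ a ∈ maximalIdeal 𝒪, algebraMap 𝒪 Λ a ∈ I 1)
    (hle : ∀ n, 1 ≤ n → I 1 ^ n ≤ I n)
    (hstep : ∀ n, 1 ≤ n → I n = I (n + 1) ⊔ I 1 ^ n)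
    {c : ℕ} (w : Fin c → 𝒪) (hw : maximalIdeal 𝒪 = Ideal.span (Set.range w))
    {d : ℕ} (x : Fin d → Λ) (hx : ∀ i, x i ∈ I 1)
    (hgen : I 1 ≤ Ideal.span (Set.range x) ⊔ (maximalIdeal 𝒪).map (algebraMap 𝒪 Λ) ⊔ I 2) :
    IsTower 𝒪 (I 1) (towerOf I) (Fin.append (fun i => algebraMap 𝒪 Λ (w i)) x) where
  ne_top := hI1
  surj := hsurj
  pow_le n := by
    rcases Nat.eq_zero_or_pos n with rfl | hn
    · simp [towerOf]
    · rw [towerOf_of_pos I hn]; exact hle n hn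
  step n := by
    rcases Nat.eq_zero_or_pos n with rfl | hn
    · simp [towerOf]
    · rw [towerOf_of_pos I hn, towerOf_of_pos I (Nat.le_succ_of_le hn)]; exact hstep n hn
  one := towerOf_of_pos I le_rfl
  y_mem i := by
    refine Fin.addCases (fun i => ?_) (fun i => ?_) i
    · rw [Fin.append_left]
      exact hmax _ (hw ▸ Ideal.subset_span ⟨i, rfl⟩)
    · rw [Fin.append_right]; exact hx i
  gen := by
    rw [towerOf_of_pos I (by norm_num : 1 ≤ 2)]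
    refine hgen.trans (sup_le_sup_right ?_ _)
    refine sup_le (Ideal.span_mono ?_) ?_
    · rintro _ ⟨i, rfl⟩
      exact ⟨Fin.natAdd c i, Fin.append_right _ _ i⟩
    · rw [hw, Ideal.map_span, Ideal.span_le]
      rintro _ ⟨_, ⟨i, rfl⟩, rfl⟩
      exact Ideal.subset_span ⟨Fin.castAdd d i, Fin.append_left _ _ i⟩

/-- Abstract inverse-limit ring (full version, with the projections `π n`).
From a tower of ideals `I n` (`n ≥ 1`) of an `𝒪`-algebra `Λ` with `Λ ⧸ I 1` the residue field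
of `𝒪`, `M ^ n ≤ I n` for `M := I 1`, `I n = I (n+1) ⊔ M ^ n`, and finitely many elements of `M`
spanning the relative cotangent space of `Λ ⧸ I 2`, build the complete Noetherian local
`𝒪`-algebra `R = lim Λ ⧸ I n` together with `ι : Λ → R`. -/
theorem exists_limitRing_full
    {𝒪 : Type} [CommRing 𝒪] [IsLocalRing 𝒪] [IsNoetherianRing 𝒪]
    {Λ : Type} [CommRing Λ] [Algebra 𝒪 Λ] (I : ℕ → Ideal Λ)
    (hI1 : I 1 ≠ ⊤)
    (hsurj : ∀ z : Λ, ∃ a : 𝒪, z - algebraMap 𝒪 Λ a ∈ I 1)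
    (hmax : ∀ a ∈ maximalIdeal 𝒪, algebraMap 𝒪 Λ a ∈ I 1)
    (hle : ∀ n, 1 ≤ n → I 1 ^ n ≤ I n)
    (hstep : ∀ n, 1 ≤ n → I n = I (n + 1) ⊔ I 1 ^ n)
    (d : ℕ) (x : Fin d → Λ) (hx : ∀ i, x i ∈ I 1)
    (hgen : I 1 ≤ Ideal.span (Set.range x) ⊔ (maximalIdeal 𝒪).map (algebraMap 𝒪 Λ) ⊔ I 2) :
    ∃ (R : Type) (_ : CommRing R) (_ : IsLocalRing R) (_ : IsNoetherianRing R)
      (_ : IsAdicComplete (maximalIdeal R) R) (_ : Algebra 𝒪 R)
      (_ : IsLocalHom (algebraMap 𝒪 R)) (ι : Λ →ₐ[𝒪] R)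
      (π : ∀ n, 1 ≤ n → (R →ₐ[𝒪] Λ ⧸ I n)),
      Function.Surjective (IsLocalRing.residue R ∘ algebraMap 𝒪 R) ∧
      (∀ n, 1 ≤ n → (maximalIdeal R ^ n).comap ι = I n) ∧
      (∀ n (r : R), ∃ z : Λ, r - ι z ∈ maximalIdeal R ^ n) ∧
      (∀ n (hn : 1 ≤ n) (z : Λ), π n hn (ι z) = Ideal.Quotient.mk (I n) z) ∧
      (∀ n (hn : 1 ≤ n), RingHom.ker (π n hn : R →+* Λ ⧸ I n) = maximalIdeal R ^ n) ∧
      (∀ n (hn : 1 ≤ n), Function.Surjective (π n hn)) := by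
  obtain ⟨c, w, hw⟩ := Submodule.fg_iff_exists_fin_generating_family.mp
    ((isNoetherianRing_iff_ideal_fg 𝒪).mp inferInstance (maximalIdeal 𝒪))
  have h := isTower_towerOf I hI1 hsurj hmax hle hstep w hw.symm x hx hgen
  have hM : (I 1).IsMaximal := isMaximal_of_surj hI1 hsurj hmax
  refine ⟨h.LimRing, inferInstance, inferInstance, inferInstance, h.isAdicComplete hM,
    inferInstance, h.isLocalHom_algebraMap hmax, h.iota hM,
    fun n hn => (Ideal.quotientEquivAlgOfEq 𝒪 (towerOf_of_pos I hn)).toAlgHom.comp (h.proj n),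
    h.residue_surjective hM, fun n hn => ?_, fun n r => h.exists_sub_iota_mem hM n r,
    fun n hn z => ?_, fun n hn => ?_, fun n hn => ?_⟩
  · rw [h.comap_iota hM n, towerOf_of_pos I hn]
  · rw [AlgHom.comp_apply, h.proj_iota hM n z]
    exact Ideal.quotientEquivAlgOfEq_mk _ _ _
  · rw [← h.ker_proj' hM n]
    ext r
    simp only [RingHom.mem_ker, AlgHom.coe_toRingHom, AlgHom.comp_apply]
    exact (Ideal.quotientEquivAlgOfEq 𝒪 (towerOf_of_pos I hn)).map_eq_zero_iff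
  · exact (Ideal.quotientEquivAlgOfEq 𝒪 (towerOf_of_pos I hn)).surjective.comp
      (h.proj_surjective n)

/-- Abstract inverse-limit ring: the version without the projections. -/
theorem exists_limitRing
    {𝒪 : Type} [CommRing 𝒪] [IsDomain 𝒪] [IsDiscreteValuationRing 𝒪]
    [IsAdicComplete (maximalIdeal 𝒪) 𝒪]
    {Λ : Type} [CommRing Λ] [Algebra 𝒪 Λ] (I : ℕ → Ideal Λ)
    (hI1 : I 1 ≠ ⊤)
    (hsurj : ∀ x : Λ, ∃ a : 𝒪, x - algebraMap 𝒪 Λ a ∈ I 1)
    (hmax : ∀ a ∈ maximalIdeal 𝒪, algebraMap 𝒪 Λ a ∈ I 1)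
    (hle : ∀ n, 1 ≤ n → I 1 ^ n ≤ I n ∧ I n ≤ I 1)
    (hstep : ∀ n, 1 ≤ n → I n = I (n + 1) ⊔ I 1 ^ n)
    (d : ℕ) (x : Fin d → Λ) (hx : ∀ i, x i ∈ I 1)
    (hgen : I 1 ≤ Ideal.span (Set.range x) ⊔ (maximalIdeal 𝒪).map (algebraMap 𝒪 Λ) ⊔ I 2) :
    ∃ (R : Type) (_ : CommRing R) (_ : IsLocalRing R) (_ : IsNoetherianRing R)
      (_ : IsAdicComplete (maximalIdeal R) R) (_ : Algebra 𝒪 R)
      (_ : IsLocalHom (algebraMap 𝒪 R)) (ι : Λ →ₐ[𝒪] R),
      Function.Surjective (IsLocalRing.residue R ∘ algebraMap 𝒪 R) ∧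
      (∀ n, 1 ≤ n → (maximalIdeal R ^ n).comap ι = I n) ∧
      (∀ n (r : R), ∃ y : Λ, r - ι y ∈ maximalIdeal R ^ n) := by
  obtain ⟨R, i1, i2, i3, i4, i5, i6, ι, -, h1, h2, h3, -⟩ :=
    exists_limitRing_full I hI1 hsurj hmax (fun n hn => (hle n hn).1) hstep d x hx hgen
  exact ⟨R, i1, i2, i3, i4, i5, i6, ι, h1, h2, h3⟩

end Main

end Fermat.Agent.S53_helper78
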